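/-
T14 / SI / LC (local count), part 1: the `p`-torsion of `(𝓞 K / v^(p c + 1))ˣ`, where
`c = ord_v(ζ - 1)`:   `a^p ≡ 1 mod v^(pc+1)  ↔  a ≡ η mod v^(c+1)` for some `p`-th root of unity `η`.
-/
import Fermat.Agent.S14.SI.Defs

set_option autoImplicit false

open NumberField IsDedekindDomain Polynomial WithZero

namespace Fermat.Agent.S14.SI.LC

section Dedekind

variable {R : Type*} [CommRing R] [IsDedekindDomain R] (w : HeightOneSpectrum R)

lemma notMem_pow_succ_iff (r : R) (k : ℕ) :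
    r ∉ w.asIdeal ^ (k + 1) ↔ exp (-(k : ℤ)) ≤ w.intValuation r := by
  rw [HeightOneSpectrum.exp_le_intValuation_iff_emultiplicity_le, ← ENat.lt_natCast_add_one_iff,
    ← ENat.natCast_one, ← ENat.natCast_add, emultiplicity_lt_iff_not_dvd,
    Ideal.dvd_span_singleton]

lemma intValuation_of_isUnit {u : R} (hu : IsUnit u) : w.intValuation u = 1 := by
  rw [HeightOneSpectrum.intValuation_eq_one_iff_mem_primeCompl]
  intro h
  exact w.isPrime.ne_top (Ideal.eq_top_of_isUnit_mem _ h hu)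

lemma intValuation_eq_of_associated {a b : R} (h : Associated a b) :
    w.intValuation a = w.intValuation b := by
  obtain ⟨u, rfl⟩ := h
  rw [map_mul, intValuation_of_isUnit w u.isUnit, mul_one]

end Dedekind

section Roots

variable {R : Type*} [CommRing R] [IsDedekindDomain R] (w : HeightOneSpectrum R)
  {p : ℕ} (hp : p.Prime) {ζ : R} (hζ : IsPrimitiveRoot ζ p) {c : ℕ}
  (hc : w.intValuation (ζ - 1) = exp (-(c : ℤ)))

include hp hζ hc

lemma intValuation_root_sub_root {η₁ η₂ : R} (h₁ : η₁ ∈ nthRootsFinset p (1 : R))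
    (h₂ : η₂ ∈ nthRootsFinset p (1 : R)) (hne : η₁ ≠ η₂) :
    w.intValuation (η₁ - η₂) = exp (-(c : ℤ)) := by
  rw [← hc]
  exact (intValuation_eq_of_associated w
    (hζ.nthRootsFinset_pairwise_associated_sub_one_sub_of_prime hp h₁ h₂ hne)).symm

lemma root_sub_root_notMem {η₁ η₂ : R} (h₁ : η₁ ∈ nthRootsFinset p (1 : R))
    (h₂ : η₂ ∈ nthRootsFinset p (1 : R)) (hne : η₁ ≠ η₂) :
    η₁ - η₂ ∉ w.asIdeal ^ (c + 1) := by
  rw [notMem_pow_succ_iff, intValuation_root_sub_root w hp hζ hc h₁ h₂ hne]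

lemma root_sub_root_mem (η₁ η₂ : R) (h₁ : η₁ ∈ nthRootsFinset p (1 : R))
    (h₂ : η₂ ∈ nthRootsFinset p (1 : R)) :
    η₁ - η₂ ∈ w.asIdeal ^ c := by
  by_cases hne : η₁ = η₂
  · simp [hne]
  · rw [← HeightOneSpectrum.intValuation_le_pow_iff_mem,
      intValuation_root_sub_root w hp hζ hc h₁ h₂ hne]

theorem pow_sub_one_mem_iff (a : R) :
    a ^ p - 1 ∈ w.asIdeal ^ (p * c + 1) ↔
      ∃ η ∈ nthRootsFinset p (1 : R), a - η ∈ w.asIdeal ^ (c + 1) := by
  classical
  have hprod : a ^ p - 1 = ∏ η ∈ nthRootsFinset p (1 : R), (a - η) := by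
    have := hζ.pow_sub_pow_eq_prod_sub_mul a 1 hp.pos
    simpa using this
  have hcard : (nthRootsFinset p (1 : R)).card = p := hζ.card_nthRootsFinset
  constructor
  · intro h
    by_contra hcon
    push Not at hcon
    have h1 : ∀ η ∈ nthRootsFinset p (1 : R), exp (-(c : ℤ)) ≤ w.intValuation (a - η) :=
      fun η hη => (notMem_pow_succ_iff w _ _).1 (hcon η hη)
    have h2 : exp (-((p * c : ℕ) : ℤ)) ≤ w.intValuation (a ^ p - 1) := by
      rw [hprod, map_prod]
      calc exp (-((p * c : ℕ) : ℤ)) = ∏ _η ∈ nthRootsFinset p (1 : R), exp (-(c : ℤ)) := by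
            rw [Finset.prod_const, hcard, ← exp_nsmul]
            congr 1
            push_cast
            ring
        _ ≤ _ := Finset.prod_le_prod' h1
    exact (notMem_pow_succ_iff w _ _).2 h2 h
  · rintro ⟨η₀, hη₀, hmem⟩
    rw [hprod, ← Finset.mul_prod_erase _ _ hη₀]
    have h3 : ∏ η ∈ (nthRootsFinset p (1 : R)).erase η₀, (a - η) ∈ w.asIdeal ^ ((p - 1) * c) := by
      have : ∏ η ∈ (nthRootsFinset p (1 : R)).erase η₀, (a - η) ∈
          ∏ _η ∈ (nthRootsFinset p (1 : R)).erase η₀, w.asIdeal ^ c := by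
        apply Ideal.prod_mem_prod
        intro η hη
        have hη' := Finset.mem_of_mem_erase hη
        have : a - η = (a - η₀) + (η₀ - η) := by ring
        rw [this]
        exact Ideal.add_mem _ (Ideal.pow_le_pow_right (Nat.le_succ c) hmem)
          (root_sub_root_mem w hp hζ hc η₀ η hη₀ hη')
      rwa [Finset.prod_const, Finset.card_erase_of_mem hη₀, hcard, ← pow_mul, mul_comm] at this
    have h4 : p * c + 1 = (c + 1) + (p - 1) * c := by
      have := hp.one_le
      zify [this]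
      ring
    rw [h4, pow_add]
    exact Ideal.mul_mem_mul hmem h3

end Roots

end Fermat.Agent.S14.SI.LC
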