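/-
T14 / SI / LC (local count), part 2: `#{x ∈ 𝓞 K / v^(pc+1) : x^p = 1} = p · N(v)^((p-1)c)`,
`c = ord_v(ζ - 1)`.
-/
import Fermat.Agent.S14.SI.LC.Torsion

set_option autoImplicit false

open NumberField IsDedekindDomain Polynomial WithZero

namespace Fermat.Agent.S14.SI.LC

section Count

variable {K : Type*} [Field K] [NumberField K] (w : HeightOneSpectrum (𝓞 K))
  {p : ℕ} (hp : p.Prime) {ζ : 𝓞 K} (hζ : IsPrimitiveRoot ζ p) {c : ℕ}
  (hc : w.intValuation (ζ - 1) = exp (-(c : ℤ)))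

lemma pow_le_pow_aux (p c : ℕ) (hp : 1 ≤ p) : c + 1 ≤ p * c + 1 := by
  have : c ≤ p * c := Nat.le_mul_of_pos_left c hp
  omega

/-- the factor map `𝓞/v^(pc+1) → 𝓞/v^(c+1)` -/
noncomputable def factorMap (p c : ℕ) (hp : 1 ≤ p) :
    (𝓞 K ⧸ w.asIdeal ^ (p * c + 1)) →+* (𝓞 K ⧸ w.asIdeal ^ (c + 1)) :=
  Ideal.Quotient.factor (Ideal.pow_le_pow_right (pow_le_pow_aux p c hp))

omit [NumberField K] in
lemma factorMap_mk (p c : ℕ) (hp : 1 ≤ p) (a : 𝓞 K) :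
    factorMap w p c hp (Ideal.Quotient.mk _ a) = Ideal.Quotient.mk _ a := rfl

lemma card_quot_pow (k : ℕ) : Nat.card (𝓞 K ⧸ w.asIdeal ^ k) = (Ideal.absNorm w.asIdeal) ^ k := by
  rw [← map_pow, Ideal.absNorm_apply, Submodule.cardQuot_apply]

lemma absNorm_ne_zero : Ideal.absNorm w.asIdeal ≠ 0 := by
  rw [Ne, Ideal.absNorm_eq_zero_iff]
  exact w.ne_bot

lemma card_ker_factorMap (hp1 : 1 ≤ p) :
    Nat.card (RingHom.ker (factorMap w p c hp1)) = (Ideal.absNorm w.asIdeal) ^ ((p - 1) * c) := by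
  set f := factorMap w p c hp1 with hf
  have hsurj : Function.Surjective f := Ideal.Quotient.factor_surjective _
  have h1 := AddSubgroup.card_eq_card_quotient_mul_card_addSubgroup (f.toAddMonoidHom.ker)
  have h2 : Nat.card ((𝓞 K ⧸ w.asIdeal ^ (p * c + 1)) ⧸ f.toAddMonoidHom.ker) =
      Nat.card (𝓞 K ⧸ w.asIdeal ^ (c + 1)) :=
    Nat.card_congr (QuotientAddGroup.quotientKerEquivOfSurjective f.toAddMonoidHom hsurj).toEquiv
  have h3 : Nat.card (RingHom.ker f) = Nat.card (f.toAddMonoidHom.ker) :=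
    Nat.card_congr (Equiv.subtypeEquivRight (fun x => by
      simp [RingHom.mem_ker, AddMonoidHom.mem_ker]))
  rw [h2, card_quot_pow, card_quot_pow, ← h3] at h1
  have hq := absNorm_ne_zero w
  have h4 : p * c + 1 = (c + 1) + (p - 1) * c := by
    zify [hp1]
    ring
  have h5 : Ideal.absNorm w.asIdeal ^ (p * c + 1) =
      Ideal.absNorm w.asIdeal ^ (c + 1) * Ideal.absNorm w.asIdeal ^ ((p - 1) * c) := by
    rw [← pow_add, ← h4]
  rw [h5] at h1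
  exact (Nat.eq_of_mul_eq_mul_left (Nat.pos_of_ne_zero (pow_ne_zero _ hq)) h1).symm


include hp hζ hc in
/-- `x^p = 1` in `𝓞/v^(pc+1)` iff `x ≡ η mod v^(c+1)` for a `p`-th root of unity `η`. -/
lemma quot_pow_eq_one_iff (x : 𝓞 K ⧸ w.asIdeal ^ (p * c + 1)) :
    x ^ p = 1 ↔ ∃ η ∈ nthRootsFinset p (1 : 𝓞 K),
      factorMap w p c hp.one_le x = Ideal.Quotient.mk _ η := by
  obtain ⟨a, rfl⟩ := Ideal.Quotient.mk_surjective x
  rw [← map_pow, ← map_one (Ideal.Quotient.mk (w.asIdeal ^ (p * c + 1))), Ideal.Quotient.eq,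
    pow_sub_one_mem_iff w hp hζ hc]
  simp only [factorMap_mk, Ideal.Quotient.eq]

include hp hζ hc in
theorem card_pow_eq_one :
    Nat.card {x : 𝓞 K ⧸ w.asIdeal ^ (p * c + 1) // x ^ p = 1} =
      p * (Ideal.absNorm w.asIdeal) ^ ((p - 1) * c) := by
  classical
  have hfmk : ∀ a : 𝓞 K, factorMap w p c hp.one_le (Ideal.Quotient.mk _ a) =
      Ideal.Quotient.mk _ a := fun a => rfl
  have key : {x : 𝓞 K ⧸ w.asIdeal ^ (p * c + 1) // x ^ p = 1} ≃
      (nthRootsFinset p (1 : 𝓞 K)) × RingHom.ker (factorMap w p c hp.one_le) := by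
    refine (Equiv.ofBijective
      (fun ηk : (nthRootsFinset p (1 : 𝓞 K)) × RingHom.ker (factorMap w p c hp.one_le) =>
      (⟨Ideal.Quotient.mk _ (ηk.1 : 𝓞 K) + (ηk.2 : 𝓞 K ⧸ w.asIdeal ^ (p * c + 1)), ?_⟩ :
        {x : 𝓞 K ⧸ w.asIdeal ^ (p * c + 1) // x ^ p = 1})) ⟨?_, ?_⟩).symm
    · rw [quot_pow_eq_one_iff w hp hζ hc]
      refine ⟨ηk.1, ηk.1.2, ?_⟩
      have h0 : factorMap w p c hp.one_le (ηk.2 : 𝓞 K ⧸ w.asIdeal ^ (p * c + 1)) = 0 :=
        (RingHom.mem_ker).1 ηk.2.2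
      rw [map_add, h0, add_zero, hfmk]
    · rintro ⟨η₁, k₁⟩ ⟨η₂, k₂⟩ h
      simp only [Subtype.mk.injEq] at h
      have h0₁ : factorMap w p c hp.one_le (k₁ : 𝓞 K ⧸ w.asIdeal ^ (p * c + 1)) = 0 :=
        (RingHom.mem_ker).1 k₁.2
      have h0₂ : factorMap w p c hp.one_le (k₂ : 𝓞 K ⧸ w.asIdeal ^ (p * c + 1)) = 0 :=
        (RingHom.mem_ker).1 k₂.2
      have h1 := congrArg (factorMap w p c hp.one_le) h
      rw [map_add, map_add, h0₁, h0₂, add_zero, add_zero, hfmk, hfmk,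
        Ideal.Quotient.eq] at h1
      have hη : (η₁ : 𝓞 K) = η₂ := by
        by_contra hne
        exact root_sub_root_notMem w hp hζ hc η₁.2 η₂.2 hne h1
      have hη' : η₁ = η₂ := Subtype.ext hη
      subst hη'
      have hk : (k₁ : 𝓞 K ⧸ w.asIdeal ^ (p * c + 1)) = k₂ := add_left_cancel h
      exact Prod.ext rfl (Subtype.ext hk)
    · rintro ⟨x, hx⟩
      obtain ⟨η, hη, hxη⟩ := (quot_pow_eq_one_iff w hp hζ hc x).1 hx
      refine ⟨(⟨η, hη⟩, ⟨x - Ideal.Quotient.mk _ η, ?_⟩), ?_⟩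
      · rw [RingHom.mem_ker, map_sub, hxη, hfmk, sub_self]
      · simp
  rw [Nat.card_congr key, Nat.card_prod, card_ker_factorMap w hp.one_le, Nat.card_eq_finsetCard,
    hζ.card_nthRootsFinset]

end Count

end Fermat.Agent.S14.SI.LC
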