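/-
T14 / SI / LC (local count), part 3: the reduction map on units
`𝓞_{K,v}ˣ → (𝓞 K / v^n)ˣ` (as a hom on a subgroup of `Kˣ`): surjective, kernel `= OneModPow v n`.
-/
import Fermat.Agent.S14.SI.LC.Count

set_option autoImplicit false

open NumberField IsDedekindDomain Polynomial WithZero

namespace Fermat.Agent.S14.SI.LC

section UnitMap

variable {K : Type*} [Field K] [NumberField K] (w : HeightOneSpectrum (𝓞 K)) (n : ℕ)

lemma isUnit_mk_of_notMem {a : 𝓞 K} (ha : a ∉ w.asIdeal) :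
    IsUnit (Ideal.Quotient.mk (w.asIdeal ^ n) a) := by
  have : w.asIdeal.IsMaximal := w.isMaximal
  obtain ⟨b, i, hi, hb⟩ := Ideal.IsMaximal.exists_inv_pow w.asIdeal ha n
  refine IsUnit.of_mul_eq_one (Ideal.Quotient.mk _ b) ?_
  rw [← map_mul, ← map_one (Ideal.Quotient.mk (w.asIdeal ^ n)), Ideal.Quotient.eq, ← hb]
  have : a * b - (b * a + i) = -i := by ring
  rw [this]
  exact Ideal.neg_mem_iff _ |>.2 hi

/-- the localisation of `𝓞 K` at `v`, as a valuation subring of `K` -/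
noncomputable abbrev Ov : ValuationSubring K := HeightOneSpectrum.valuationSubringAtPrime K w

/-- reduction map `𝓞_{K,v} → 𝓞 K / v^n` -/
noncomputable def resHom : (Ov w) →+* (𝓞 K ⧸ w.asIdeal ^ n) :=
  IsLocalization.lift (M := w.asIdeal.primeCompl) (g := Ideal.Quotient.mk (w.asIdeal ^ n))
    (fun y => isUnit_mk_of_notMem w n y.2)

lemma resHom_algebraMap (a : 𝓞 K) :
    resHom w n (algebraMap (𝓞 K) (Ov w) a) = Ideal.Quotient.mk _ a :=
  IsLocalization.lift_eq _ _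

/-- the reduction map on units `𝓞_{K,v}ˣ → (𝓞 K / v^n)ˣ`, as a map on the subgroup of `Kˣ`. -/
noncomputable def unitHom : (Ov w).unitGroup →* (𝓞 K ⧸ w.asIdeal ^ n)ˣ :=
  (Units.map (resHom w n).toMonoidHom).comp (Ov w).unitGroupMulEquiv.toMonoidHom

lemma mem_Ov_iff (x : K) : x ∈ Ov w ↔ w.valuation K x ≤ 1 := by
  rw [Ov, HeightOneSpectrum.valuationSubringAtPrime_eq_valuationSubring]
  exact Valuation.mem_valuationSubring_iff (w.valuation K) x

lemma mem_unitGroup_iff (x : Kˣ) : x ∈ (Ov w).unitGroup ↔ w.valuation K (x : K) = 1 := by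
  rw [Ov, HeightOneSpectrum.valuationSubringAtPrime_eq_valuationSubring]
  exact Valuation.mem_unitGroup_iff (v := w.valuation K) (x := x)


lemma coe_unitHom (x : (Ov w).unitGroup) :
    ((unitHom w n x : (𝓞 K ⧸ w.asIdeal ^ n)ˣ) : 𝓞 K ⧸ w.asIdeal ^ n) =
      resHom w n ((Ov w).unitGroupMulEquiv x : Ov w) := rfl

/-- computing `unitHom` on a fraction -/
lemma unitHom_mul_mk (x : (Ov w).unitGroup) (a b : 𝓞 K)
    (h : ((x : Kˣ) : K) * (b : K) = (a : K)) :
    ((unitHom w n x : (𝓞 K ⧸ w.asIdeal ^ n)ˣ) : 𝓞 K ⧸ w.asIdeal ^ n) *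
      Ideal.Quotient.mk _ b = Ideal.Quotient.mk _ a := by
  rw [coe_unitHom, ← resHom_algebraMap, ← resHom_algebraMap, ← map_mul]
  congr 1
  apply Subtype.ext
  exact h

lemma exists_frac_of_mem_unitGroup {x : Kˣ} (hx : x ∈ (Ov w).unitGroup) :
    ∃ a b : 𝓞 K, a ∉ w.asIdeal ∧ b ∉ w.asIdeal ∧ ((x : Kˣ) : K) * (b : K) = (a : K) := by
  rw [mem_unitGroup_iff] at hx
  obtain ⟨a, d, hd⟩ := w.exists_primeCompl_mul_eq_of_integer (x : K) hx.le
  refine ⟨a, d, ?_, d.2, hd⟩
  have h1 : w.valuation K ((x : K) * algebraMap (𝓞 K) K d) = 1 := by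
    rw [map_mul, hx, one_mul, HeightOneSpectrum.valuation_of_algebraMap,
      HeightOneSpectrum.intValuation_eq_one_iff_mem_primeCompl]
    exact d.2
  rw [hd, HeightOneSpectrum.valuation_of_algebraMap,
    HeightOneSpectrum.intValuation_eq_one_iff_mem_primeCompl] at h1
  exact h1

lemma mem_unitGroup_of_frac {x : Kˣ} {a b : 𝓞 K} (ha : a ∉ w.asIdeal) (hb : b ∉ w.asIdeal)
    (h : ((x : Kˣ) : K) * (b : K) = (a : K)) : x ∈ (Ov w).unitGroup := by
  rw [mem_unitGroup_iff]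
  have h1 : w.valuation K ((x : K) * algebraMap (𝓞 K) K b) = w.valuation K (algebraMap (𝓞 K) K a) :=
    congrArg _ h
  rw [map_mul, HeightOneSpectrum.valuation_of_algebraMap, HeightOneSpectrum.valuation_of_algebraMap,
    (HeightOneSpectrum.intValuation_eq_one_iff_mem_primeCompl w a).2 ha,
    (HeightOneSpectrum.intValuation_eq_one_iff_mem_primeCompl w b).2 hb, mul_one] at h1
  exact h1

lemma OneModPow.mem_unitGroup {x : Kˣ} (hx : OneModPow w.asIdeal n x) : x ∈ (Ov w).unitGroup := by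
  obtain ⟨a, b, ha, hb, -, h⟩ := hx
  exact mem_unitGroup_of_frac w ha hb h

lemma unitHom_eq_one_iff (x : (Ov w).unitGroup) :
    unitHom w n x = 1 ↔ OneModPow w.asIdeal n (x : Kˣ) := by
  constructor
  · intro h1
    obtain ⟨a, b, ha, hb, h⟩ := exists_frac_of_mem_unitGroup w x.2
    refine ⟨a, b, ha, hb, ?_, h⟩
    have h2 := unitHom_mul_mk w n x a b h
    rw [h1, Units.val_one, one_mul] at h2
    exact (Ideal.Quotient.eq.1 h2.symm)
  · rintro ⟨a, b, ha, hb, hab, h⟩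
    have h2 := unitHom_mul_mk w n x a b h
    have h3 : Ideal.Quotient.mk (w.asIdeal ^ n) a = Ideal.Quotient.mk _ b := Ideal.Quotient.eq.2 hab
    rw [h3] at h2
    have hu : IsUnit (Ideal.Quotient.mk (w.asIdeal ^ n) b) := isUnit_mk_of_notMem w n hb
    apply Units.ext
    rw [Units.val_one]
    exact hu.mul_left_injective (by simp only [h2, one_mul])

lemma unitHom_surjective (hn : n ≠ 0) : Function.Surjective (unitHom w n) := by
  intro u
  obtain ⟨a, ha⟩ := Ideal.Quotient.mk_surjective (u : 𝓞 K ⧸ w.asIdeal ^ n)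
  have haw : a ∉ w.asIdeal := by
    intro hmem
    have h1 : (u : 𝓞 K ⧸ w.asIdeal ^ n) ^ n = 0 := by
      rw [← ha, ← map_pow, Ideal.Quotient.eq_zero_iff_mem]
      exact Ideal.pow_mem_pow hmem n
    have h2 : IsUnit ((u : 𝓞 K ⧸ w.asIdeal ^ n) ^ n) := (u ^ n).isUnit
    rw [h1, isUnit_zero_iff] at h2
    have h3 : (1 : 𝓞 K) ∈ w.asIdeal ^ n := by
      rw [← Ideal.Quotient.eq_zero_iff_mem, map_one]
      exact h2.symm
    exact w.isPrime.ne_top ((Ideal.eq_top_iff_one _).2 (Ideal.pow_le_self hn h3))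
  have ha0 : (a : K) ≠ 0 := by
    intro h0
    apply haw
    have : a = 0 := by exact_mod_cast h0
    rw [this]
    exact zero_mem _
  have hx : Units.mk0 (a : K) ha0 ∈ (Ov w).unitGroup :=
    mem_unitGroup_of_frac w (a := a) (b := 1) haw
      (fun h => w.isPrime.ne_top ((Ideal.eq_top_iff_one _).2 h)) (by simp)
  refine ⟨⟨_, hx⟩, ?_⟩
  apply Units.ext
  have h2 := unitHom_mul_mk w n ⟨_, hx⟩ a 1 (by simp)
  rw [map_one, mul_one] at h2
  rw [h2, ha]

end UnitMap

end Fermat.Agent.S14.SI.LC
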