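/-
T14 / SI / LC (local count), part 4: index computations.
`[Kˣ : localPowSubgroupN p v n] = p · |A / A^p|`, `A = (𝓞 K / v^n)ˣ`.
-/
import Fermat.Agent.S14.SI.LC.UnitMap

set_option autoImplicit false

open NumberField IsDedekindDomain Polynomial WithZero

namespace Fermat.Agent.S14.SI.LC

section Index

variable {K : Type*} [Field K] [NumberField K] (w : HeightOneSpectrum (𝓞 K)) (n : ℕ) (p : ℕ)

lemma valuation_eq_one_of_pow {y : Kˣ} (hp : p ≠ 0)
    (h : w.valuation K ((y ^ p : Kˣ) : K) = 1) : w.valuation K (y : K) = 1 := by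
  rw [Units.val_pow_eq_pow_val, map_pow] at h
  exact (_root_.pow_eq_one_iff.1 h).resolve_right hp

lemma subgroupOf_localPow_eq (hp : p ≠ 0) (hn : n ≠ 0) :
    (localPowSubgroupN p w.asIdeal n).subgroupOf (Ov w).unitGroup =
      ((powMonoidHom p : (𝓞 K ⧸ w.asIdeal ^ n)ˣ →* _).range).comap (unitHom w n) := by
  ext x
  rw [Subgroup.mem_subgroupOf, Subgroup.mem_comap, MonoidHom.mem_range]
  constructor
  · rintro ⟨y, hy⟩
    have ht : x.1 / y ^ p ∈ (Ov w).unitGroup := OneModPow.mem_unitGroup w n hy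
    have hyp : y ^ p ∈ (Ov w).unitGroup := by
      have : y ^ p = x.1 / (x.1 / y ^ p) := (div_div_cancel _ _).symm
      rw [this]
      exact Subgroup.div_mem _ x.2 ht
    have hyU : y ∈ (Ov w).unitGroup := by
      rw [mem_unitGroup_iff] at hyp ⊢
      exact valuation_eq_one_of_pow w p hp hyp
    refine ⟨unitHom w n ⟨y, hyU⟩, ?_⟩
    have h1 : unitHom w n ⟨x.1 / y ^ p, ht⟩ = 1 := (unitHom_eq_one_iff w n _).2 hy
    have h2 : x = ⟨y, hyU⟩ ^ p * ⟨x.1 / y ^ p, ht⟩ := by
      apply Subtype.ext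
      simp
    rw [powMonoidHom_apply, h2, map_mul, h1, mul_one, map_pow]
  · rintro ⟨a, ha⟩
    obtain ⟨y, rfl⟩ := unitHom_surjective w n hn a
    rw [powMonoidHom_apply, ← map_pow] at ha
    have h1 : unitHom w n (x / y ^ p) = 1 := by
      rw [_root_.map_div, ha, div_self']
    have h2 := (unitHom_eq_one_iff w n _).1 h1
    exact ⟨y.1, by simpa using h2⟩

lemma relIndex_localPow_unitGroup (hp : p ≠ 0) (hn : n ≠ 0) :
    (localPowSubgroupN p w.asIdeal n).relIndex (Ov w).unitGroup =
      Nat.card ((𝓞 K ⧸ w.asIdeal ^ n)ˣ ⧸ (powMonoidHom p : (𝓞 K ⧸ w.asIdeal ^ n)ˣ →* _).range) := by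
  rw [Subgroup.relIndex, subgroupOf_localPow_eq w n p hp hn,
    Subgroup.index_comap_of_surjective _ (unitHom_surjective w n hn), Subgroup.index_eq_card]


/-- `ord_v mod p` as a homomorphism `Kˣ → ℤ/p` (written multiplicatively). -/
noncomputable def ordHom : Kˣ →* Multiplicative (ZMod p) :=
  (AddMonoidHom.toMultiplicative (Int.castAddHom (ZMod p))).comp w.valuationOfNeZero

lemma ordHom_apply (x : Kˣ) :
    ordHom w p x = Multiplicative.ofAdd (((w.valuationOfNeZero x).toAdd : ℤ) : ZMod p) := rfl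

lemma valuationOfNeZero_eq_one_iff (x : Kˣ) :
    w.valuationOfNeZero x = 1 ↔ w.valuation K (x : K) = 1 := by
  rw [← HeightOneSpectrum.valuationOfNeZero_eq]
  exact ⟨fun h => by rw [h]; rfl, fun h => WithZero.coe_injective (by rw [h]; rfl)⟩

lemma exists_uniformizer_unit :
    ∃ π : Kˣ, w.valuationOfNeZero π = Multiplicative.ofAdd (-1 : ℤ) := by
  obtain ⟨π, hπ⟩ := w.valuation_exists_uniformizer K
  have hπ0 : π ≠ 0 := by
    rintro rfl
    rw [map_zero] at hπ
    exact WithZero.exp_ne_zero hπ.symm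
  refine ⟨Units.mk0 π hπ0, ?_⟩
  apply WithZero.coe_injective
  rw [HeightOneSpectrum.valuationOfNeZero_eq, Units.val_mk0, hπ]
  rfl


omit [NumberField K] in
lemma pow_mem_localPowSubgroupN (y : Kˣ) : y ^ p ∈ localPowSubgroupN p w.asIdeal n :=
  ⟨y, by rw [div_self']; exact oneModPow_one _ _⟩

omit [NumberField K] in
lemma oneModPowSubgroup_le_localPow : oneModPowSubgroup w.asIdeal n ≤ localPowSubgroupN p w.asIdeal n :=
  fun x hx => ⟨1, by
    have hx' : OneModPow w.asIdeal n x := hx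
    simpa using hx'⟩

lemma ordHom_pow_eq_one [NeZero p] (g : Multiplicative (ZMod p)) : g ^ p = 1 := by
  apply Multiplicative.toAdd.injective
  rw [toAdd_pow, toAdd_one, nsmul_eq_mul, ZMod.natCast_self, zero_mul]

lemma ordHom_ker_eq [NeZero p] :
    (ordHom w p).ker = (Ov w).unitGroup ⊔ localPowSubgroupN p w.asIdeal n := by
  apply le_antisymm
  · intro x hx
    rw [MonoidHom.mem_ker, ordHom_apply] at hx
    have h0 : (((w.valuationOfNeZero x).toAdd : ℤ) : ZMod p) = 0 := by
      simpa using congrArg Multiplicative.toAdd hx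
    rw [ZMod.intCast_zmod_eq_zero_iff_dvd] at h0
    obtain ⟨k, hk⟩ := h0
    obtain ⟨π, hπ⟩ := exists_uniformizer_unit w
    set y : Kˣ := π ^ (-k) with hy
    have hval : w.valuationOfNeZero (x / y ^ p) = 1 := by
      rw [_root_.map_div, map_pow, hy, map_zpow, hπ, div_eq_one]
      apply Multiplicative.toAdd.injective
      rw [hk, toAdd_pow, toAdd_zpow, toAdd_ofAdd]
      simp
    have hU : x / y ^ p ∈ (Ov w).unitGroup := by
      rw [mem_unitGroup_iff, ← valuationOfNeZero_eq_one_iff]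
      exact hval
    have : x = (x / y ^ p) * y ^ p := by rw [div_mul_cancel]
    rw [this]
    exact Subgroup.mul_mem_sup hU (pow_mem_localPowSubgroupN w n p y)
  · apply sup_le
    · intro x hx
      rw [mem_unitGroup_iff, ← valuationOfNeZero_eq_one_iff] at hx
      rw [MonoidHom.mem_ker, ordHom, MonoidHom.comp_apply, hx, map_one]
    · rintro x ⟨y, hy⟩
      have hU : x / y ^ p ∈ (Ov w).unitGroup := OneModPow.mem_unitGroup w n hy
      rw [mem_unitGroup_iff, ← valuationOfNeZero_eq_one_iff] at hU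
      have h1 : ordHom w p (x / y ^ p) = 1 := by
        rw [ordHom, MonoidHom.comp_apply, hU, map_one]
      have : x = (x / y ^ p) * y ^ p := by rw [div_mul_cancel]
      rw [MonoidHom.mem_ker, this, map_mul, h1, one_mul, map_pow, ordHom_pow_eq_one]

lemma ordHom_surjective [NeZero p] : Function.Surjective (ordHom w p) := by
  intro g
  obtain ⟨π, hπ⟩ := exists_uniformizer_unit w
  refine ⟨π ^ (-((Multiplicative.toAdd g).val : ℤ)), ?_⟩
  rw [ordHom_apply, map_zpow, hπ]
  apply Multiplicative.toAdd.injective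
  rw [toAdd_ofAdd, toAdd_zpow, toAdd_ofAdd]
  simp

lemma index_ordHom_ker [NeZero p] : (ordHom w p).ker.index = p := by
  rw [Subgroup.index_ker, MonoidHom.range_eq_top.2 (ordHom_surjective w p), Subgroup.card_top,
    Nat.card_eq_fintype_card, Fintype.card_multiplicative]
  exact ZMod.card p

/-- the index of the group of local `p`-th powers (precision `n ≥ 1`):
`[Kˣ : localPow] = p · |A / A^p|`, `A = (𝓞 K / v^n)ˣ`. -/
theorem index_localPowSubgroupN [NeZero p] (hn : n ≠ 0) :
    (localPowSubgroupN p w.asIdeal n).index =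
      Nat.card ((𝓞 K ⧸ w.asIdeal ^ n)ˣ ⧸ (powMonoidHom p : (𝓞 K ⧸ w.asIdeal ^ n)ˣ →* _).range)
        * p := by
  have hle : localPowSubgroupN p w.asIdeal n ≤ (ordHom w p).ker := by
    rw [ordHom_ker_eq w n p]
    exact le_sup_right
  rw [← Subgroup.relIndex_mul_index hle, index_ordHom_ker, ordHom_ker_eq w n p,
    Subgroup.relIndex_sup_right, relIndex_localPow_unitGroup w n p (NeZero.ne p) hn]

end Index

end Fermat.Agent.S14.SI.LC
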