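/-
T14 / SI / LC (local count), part 5: `ord_v(p) = (p-1) ord_v(ζ-1)`, `|A/A^p| = |A[p]|`, and the
final count  `[Kˣ : localPowSubgroup p v] = p² · N(v)^(ord_v p)`.
-/
import Fermat.Agent.S14.SI.LC.Index

set_option autoImplicit false

open NumberField IsDedekindDomain Polynomial WithZero

namespace Fermat.Agent.S14.SI.LC

section Arith

variable {K : Type*} [Field K] [NumberField K] (w : HeightOneSpectrum (𝓞 K))
  {p : ℕ} (hp : p.Prime) {ζ : 𝓞 K} (hζ : IsPrimitiveRoot ζ p) {c : ℕ}
  (hc : w.intValuation (ζ - 1) = exp (-(c : ℤ)))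

include hp hζ hc in
lemma intValuation_prime : w.intValuation ((p : ℕ) : 𝓞 K) = exp (-(((p - 1) * c : ℕ) : ℤ)) := by
  obtain ⟨n, rfl⟩ : ∃ n, p = n + 1 := ⟨p - 1, (Nat.sub_add_cancel hp.one_le).symm⟩
  have h1 := hζ.prod_one_sub_pow_eq_order
  have h2 : ((n + 1 : ℕ) : 𝓞 K) = ∏ k ∈ Finset.range n, (1 - ζ ^ (k + 1)) := by
    rw [h1]; push_cast; ring
  rw [h2, map_prod]
  have h3 : ∀ k ∈ Finset.range n, w.intValuation (1 - ζ ^ (k + 1)) = exp (-(c : ℤ)) := by
    intro k hk
    have hk' : k + 1 < n + 1 := by simpa using hk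
    apply intValuation_root_sub_root w hp hζ hc
    · rw [mem_nthRootsFinset hp.pos]; simp
    · rw [mem_nthRootsFinset hp.pos, ← pow_mul, mul_comm, pow_mul, hζ.pow_eq_one, one_pow]
    · exact (hζ.pow_ne_one_of_pos_of_lt (Nat.succ_ne_zero k) hk').symm
  rw [Finset.prod_congr rfl h3, Finset.prod_const, Finset.card_range, ← exp_nsmul]
  congr 1
  simp

end Arith

section Group

/-- for a finite commutative group, `|A / A^n| = |A[n]|` -/
lemma card_quot_range_powMonoidHom {A : Type*} [CommGroup A] [Finite A] (n : ℕ) :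
    Nat.card (A ⧸ (powMonoidHom n : A →* A).range) = Nat.card (powMonoidHom n : A →* A).ker := by
  have h1 := Subgroup.card_mul_index (powMonoidHom n : A →* A).ker
  rw [Subgroup.index_ker] at h1
  have h2 := Subgroup.card_mul_index (powMonoidHom n : A →* A).range
  rw [Subgroup.index_eq_card] at h2
  have hpos : 0 < Nat.card (powMonoidHom n : A →* A).range := Nat.card_pos
  rw [← h2, mul_comm] at h1
  exact (Nat.eq_of_mul_eq_mul_left hpos h1).symm

/-- the `n`-torsion of the unit group of a monoid, as a subtype of the monoid -/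
noncomputable def kerPowEquiv {M : Type*} [CommMonoid M] (n : ℕ) (hn : n ≠ 0) :
    (powMonoidHom n : Mˣ →* Mˣ).ker ≃ {x : M // x ^ n = 1} where
  toFun u := ⟨(u.1 : M), by
    have := u.2
    rw [MonoidHom.mem_ker, powMonoidHom_apply] at this
    rw [← Units.val_pow_eq_pow_val, this, Units.val_one]⟩
  invFun x := ⟨Units.ofPowEqOne x.1 n x.2 hn, by
    rw [MonoidHom.mem_ker, powMonoidHom_apply]
    apply Units.ext
    rw [Units.val_pow_eq_pow_val, Units.val_ofPowEqOne, x.2, Units.val_one]⟩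
  left_inv u := by
    apply Subtype.ext
    apply Units.ext
    simp
  right_inv x := by
    apply Subtype.ext
    simp

end Group

section Final

variable {K : Type*} [Field K] [NumberField K]

/-- **Local count**: `[Kˣ : local p-th powers at v] = p² · N(v)^(ord_v p)`. -/
theorem card_quotient_localPowSubgroup_aux {p : ℕ}
    (hp : p.Prime) (ζ : K) (hζ : IsPrimitiveRoot ζ p)
    (v : Ideal (𝓞 K)) [v.IsPrime] (hv : v ≠ ⊥) :
    Nat.card (Kˣ ⧸ localPowSubgroup p v) = p ^ 2 * (Ideal.absNorm v) ^ ordP p v := by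
  have : NeZero p := ⟨hp.ne_zero⟩
  let w : HeightOneSpectrum (𝓞 K) := ⟨v, inferInstance, hv⟩
  have hζ' : IsPrimitiveRoot hζ.toInteger p := hζ.toInteger_isPrimitiveRoot
  have hne : hζ.toInteger - 1 ≠ 0 := sub_ne_zero.2 (hζ'.ne_one hp.one_lt)
  obtain ⟨c, hcdef⟩ : ∃ c, c = multiplicity v (Ideal.span {hζ.toInteger - 1}) := ⟨_, rfl⟩
  have hc : w.intValuation (hζ.toInteger - 1) = exp (-(c : ℤ)) := by
    rw [hcdef]
    exact w.intValuation_eq_exp_neg_multiplicity hne
  have he : ordP p v = (p - 1) * c := by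
    have h1 := intValuation_prime w hp hζ' hc
    have hp0 : ((p : ℕ) : 𝓞 K) ≠ 0 := by exact_mod_cast hp.ne_zero
    rw [w.intValuation_eq_exp_neg_multiplicity hp0, exp_inj, neg_inj, Int.natCast_inj] at h1
    exact h1
  have hprec : prec p v = p * c + 1 := by
    have hp1 : 0 < p - 1 := Nat.sub_pos_of_lt hp.one_lt
    rw [prec, he, show p * ((p - 1) * c) = (p - 1) * (p * c) by ring, Nat.mul_div_cancel_left _ hp1]
  have hmain := index_localPowSubgroupN w (p * c + 1) p (Nat.succ_ne_zero _)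
  have hfin : Finite (𝓞 K ⧸ w.asIdeal ^ (p * c + 1)) :=
    Ideal.finiteQuotientOfFreeOfNeBot _ (by
      rw [← Ideal.zero_eq_bot]
      exact pow_ne_zero _ (by rw [Ideal.zero_eq_bot]; exact w.ne_bot))
  rw [localPowSubgroup, hprec, he, ← Subgroup.index_eq_card]
  change (localPowSubgroupN p w.asIdeal (p * c + 1)).index = _
  rw [hmain, card_quot_range_powMonoidHom, Nat.card_congr (kerPowEquiv p hp.ne_zero),
    card_pow_eq_one w hp hζ' hc]
  change p * Ideal.absNorm v ^ ((p - 1) * c) * p = _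
  ring

end Final

end Fermat.Agent.S14.SI.LC
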